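import Fermat.Agent.S56.FL.RamLemSpec
import Fermat.Agent.S56.H334.RamQuotFormula

/-!
# S56 / W-FLAT-SS, FL-RAM: `FL.RLQuotFormulaStatement` VERBATIM (helper102)

Adapter from `H334.quot_formula` (Serre, Local Fields IV §1 Prop. 3; same statement as
`H102.quot_formula_finsum`) to the frozen shape of `FL/RamLemSpec.lean`:
`i_Γ(τ) = #{n | τ ∈ Γ_n}` and `i_{Γ/N}(σ N) = #{n | σ ∈ qRam d N n}`.
-/

set_option autoImplicit false
set_option linter.unusedSectionVars false
set_option linter.style.haveILetI false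

open IsLocalRing

namespace Fermat.Agent.S56.H102.RLQF

open Fermat.Agent.S56.H334 Fermat.Agent.S56.FL

/-- `#{n | n < k} = k`. -/
theorem card_setOf_lt (k : ℕ) : Nat.card {n : ℕ | n < k} = k := by
  have h : {n : ℕ | n < k} = Set.Iio k := rfl
  rw [h, Nat.card_eq_card_toFinset]
  simp

section General

variable {B : Type*} [CommRing B] [IsDomain B] [IsDiscreteValuationRing B]
variable {Γ : Type*} [Group Γ] [MulSemiringAction Γ B]

/-- `i_Γ(σ) = #{n | σ ∈ Γ_n}` for `σ ≠ 1`. -/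
theorem card_setOf_mem_ramGroup [FaithfulSMul Γ B] {σ : Γ} (hσ : σ ≠ 1) :
    Nat.card {n : ℕ | σ ∈ H334.ramGroup Γ B n} = lowIdx Γ B σ := by
  have h : {n : ℕ | σ ∈ H334.ramGroup Γ B n} = {n : ℕ | n < lowIdx Γ B σ} := by
    ext n
    exact mem_ramGroup_iff_lt_lowIdx hσ n
  rw [h, card_setOf_lt]

end General

section Datum

variable (A B Γ : Type*) [CommRing A] [IsDomain A] [IsDiscreteValuationRing A]
  [CommRing B] [IsDomain B] [IsDiscreteValuationRing B] [Algebra A B] [Module.Finite A B]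
  [FaithfulSMul A B] [Group Γ] [Finite Γ] [MulSemiringAction Γ B] [SMulCommClass Γ A B]
  [Algebra.IsInvariant A B Γ] [FaithfulSMul Γ B]
  (N : Subgroup Γ) [N.Normal] [Finite (ResidueField A)]

/-- The ramification groups of `Γ ⧸ N` acting on `B^N`, described inside `B`. -/
theorem mem_quotRamGroup_iff_forall (hN : N ≤ H334.ramGroup Γ B 0) (n : ℕ) (σ : Γ) :
    σ ∈ quotRamGroup A B Γ N n ↔
      ∀ x : B, (∀ ν ∈ N, ν • x = x) → σ • x - x ∈ maximalIdeal B ^ (Nat.card N * (n + 1)) := by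
  haveI := isDiscreteValuationRing_fixedPoints A B N
  haveI := isLocalHom_fixedPoints A B Γ N
  have he := map_maximalIdeal_fixedPoints A B Γ N hN
  rw [mem_quotRamGroup_iff]
  constructor
  · intro h x hx
    have hxS : x ∈ FixedPoints.subalgebra A B N := fun ν => hx ν.1 ν.2
    have h1 : (σ : Γ ⧸ N) • (⟨x, hxS⟩ : FixedPoints.subalgebra A B N) - ⟨x, hxS⟩ ∈
        maximalIdeal (FixedPoints.subalgebra A B N) ^ (n + 1) := h ⟨x, hxS⟩
    rw [mem_maximalIdeal_pow_iff_of_map_eq he] at h1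
    exact h1
  · intro h x
    show (σ : Γ ⧸ N) • x - x ∈ maximalIdeal (FixedPoints.subalgebra A B N) ^ (n + 1)
    rw [mem_maximalIdeal_pow_iff_of_map_eq he]
    exact h (x : B) fun ν hν => x.2 ⟨ν, hν⟩

/-- `i_{Γ/N}(σ N) = #{n | σ ∈ F N n}` for `σ ∉ N`. -/
theorem card_setOf_mem_quotRamGroup {σ : Γ} (hσ : σ ∉ N) :
    Nat.card {n : ℕ | σ ∈ quotRamGroup A B Γ N n} = quotLowIdx A B Γ N σ := by
  have h : {n : ℕ | σ ∈ quotRamGroup A B Γ N n} = {n : ℕ | n < quotLowIdx A B Γ N σ} := by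
    ext n
    show σ ∈ quotRamGroup A B Γ N n ↔ n < quotLowIdx A B Γ N σ
    rw [mem_quotRamGroup_iff_lowIdx]
    constructor
    · rintro (h | h)
      · exact absurd h hσ
      · exact h
    · intro h
      exact Or.inr h
  rw [h, card_setOf_lt]

end Datum

/-- **RL-QF**, verbatim. -/
theorem rlQuotFormula : RLQuotFormulaStatement := by
  intro d N hN σ hσ
  haveI : N.Normal := hN.1
  haveI : Finite (ResidueField d.A) := by
    apply Nat.finite_of_card_ne_zero
    rw [d.hκ]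
    exact d.hp.ne_zero
  have hN0 : N ≤ H334.ramGroup d.Γ d.B 0 := fun ν hν =>
    H334.ramGroup_antitone (Nat.zero_le 1) (hN.2 hν)
  have key := H334.quot_formula d.A d.B d.Γ N hN0 hσ
  have h1 : ∀ w : d.Γ, w ∈ N →
      Nat.card {n : ℕ | σ * w ∈ FL.ramGroup d.B d.Γ n} = lowIdx d.Γ d.B (σ * w) := by
    intro w hw
    have hne : σ * w ≠ 1 := by
      intro h
      apply hσ
      have : σ = w⁻¹ := eq_inv_of_mul_eq_one_left h
      rw [this]
      exact N.inv_mem hw
    exact card_setOf_mem_ramGroup hne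
  have h2 : Nat.card {n : ℕ | σ ∈ d.qRam N n} = quotLowIdx d.A d.B d.Γ N σ := by
    have hset : {n : ℕ | σ ∈ d.qRam N n} = {n : ℕ | σ ∈ quotRamGroup d.A d.B d.Γ N n} := by
      ext n
      exact (mem_quotRamGroup_iff_forall d.A d.B d.Γ N hN0 n σ).symm
    rw [hset, card_setOf_mem_quotRamGroup d.A d.B d.Γ N hσ]
  rw [h2, ← key]
  exact finsum_congr fun w => finsum_congr fun hw => h1 w hw

end Fermat.Agent.S56.H102.RLQF
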