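import Fermat.Agent.S56.FL.RamLemSpec
import Fermat.Agent.S56.H334.RamQuot

/-!
# S56 / W-FLAT-SS, FL-RAM: `FL.RLHilbertStatement` VERBATIM (helper102)

Adapter from `H334.card_ramGroup_zero_eq` (`e = |Γ₀|`), `H334.exists_adjoin_eq_top_of_finite`
(`B = A[x]`) and `H334.differentIdeal_eq_pow_sum_lowIdx` (Hilbert's formula
`𝔇_{B/A} = 𝔪 ^ (∑_{σ ≠ 1} i_Γ(σ))`) to the frozen shape of `FL/RamLemSpec.lean`:
`𝔇_{B/A} = 𝔪 ^ (∑ᶠ n, (|Γ_n| - 1))`  (double counting `∑_{σ ≠ 1} i_Γ(σ) = ∑_n (|Γ_n| - 1)`).
-/

set_option autoImplicit false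
set_option linter.unusedSectionVars false
set_option linter.style.haveILetI false

open IsLocalRing

namespace Fermat.Agent.S56.H102.RLH

open Fermat.Agent.S56.H334 Fermat.Agent.S56.FL

section Count

variable {B : Type*} [CommRing B] [IsDomain B] [IsDiscreteValuationRing B]
variable {Γ : Type*} [Group Γ] [MulSemiringAction Γ B]

/-- Double counting: `∑_{σ ≠ 1} i_Γ(σ) = ∑_n (|Γ_n| - 1)`. -/
theorem sum_lowIdx_eq_finsum [Fintype Γ] [DecidableEq Γ] [FaithfulSMul Γ B] :
    ∑ σ ∈ Finset.univ.erase (1 : Γ), lowIdx Γ B σ =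
      ∑ᶠ n : ℕ, (Nat.card (H334.ramGroup Γ B n) - 1) := by
  classical
  obtain ⟨M, hM⟩ := exists_ramGroup_eq_bot (Γ := Γ) (B := B)
  have hbot : ∀ n, M ≤ n → H334.ramGroup Γ B n = ⊥ := fun n hn =>
    le_bot_iff.1 (hM ▸ H334.ramGroup_antitone hn)
  -- the right-hand side is a finite sum
  have hcard : ∀ n, Nat.card (H334.ramGroup Γ B n) - 1 =
      ((Finset.univ.erase (1 : Γ)).filter fun σ => σ ∈ H334.ramGroup Γ B n).card := by
    intro n
    have h1 : Nat.card (H334.ramGroup Γ B n) =
        ((Finset.univ : Finset Γ).filter fun σ => σ ∈ H334.ramGroup Γ B n).card := by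
      rw [Nat.card_eq_fintype_card]
      exact Fintype.card_of_subtype _ (fun x => by simp)
    have h2 : (Finset.univ.erase (1 : Γ)).filter (fun σ => σ ∈ H334.ramGroup Γ B n) =
        ((Finset.univ : Finset Γ).filter fun σ => σ ∈ H334.ramGroup Γ B n).erase 1 := by
      ext σ
      simp only [Finset.mem_filter, Finset.mem_erase, Finset.mem_univ, true_and, and_true]
    rw [h1, h2, Finset.card_erase_of_mem]
    simp only [Finset.mem_filter, Finset.mem_univ, true_and]
    exact Subgroup.one_mem (H334.ramGroup Γ B n)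
  have hR : ∑ᶠ n : ℕ, (Nat.card (H334.ramGroup Γ B n) - 1) =
      ∑ n ∈ Finset.range M, (Nat.card (H334.ramGroup Γ B n) - 1) := by
    apply finsum_eq_sum_of_support_subset
    intro n hn
    rw [Function.mem_support] at hn
    rw [Finset.coe_range, Set.mem_Iio]
    by_contra hlt
    rw [not_lt] at hlt
    apply hn
    simp [hbot n hlt]
  -- the left-hand side
  have hL : ∀ σ ∈ Finset.univ.erase (1 : Γ), lowIdx Γ B σ =
      ((Finset.range M).filter fun n => σ ∈ H334.ramGroup Γ B n).card := by
    intro σ hσ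
    have hσ1 : σ ≠ 1 := (Finset.mem_erase.1 hσ).1
    have hle : lowIdx Γ B σ ≤ M := by
      by_contra hlt
      rw [not_le] at hlt
      have := (mem_ramGroup_iff_lt_lowIdx hσ1 M).2 hlt
      rw [hM, Subgroup.mem_bot] at this
      exact hσ1 this
    have hfil : (Finset.range M).filter (fun n => σ ∈ H334.ramGroup Γ B n) =
        Finset.range (lowIdx Γ B σ) := by
      ext n
      simp only [Finset.mem_filter, Finset.mem_range, mem_ramGroup_iff_lt_lowIdx hσ1]
      omega
    rw [hfil, Finset.card_range]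
  rw [hR, Finset.sum_congr rfl hL, Finset.sum_congr rfl (fun n _ => hcard n)]
  simp only [Finset.card_filter]
  exact Finset.sum_comm

end Count

section Datum

variable (A B Γ : Type*) [CommRing A] [IsDomain A] [IsDiscreteValuationRing A]
  [CommRing B] [IsDomain B] [IsDiscreteValuationRing B] [Algebra A B] [Module.Finite A B]
  [FaithfulSMul A B] [Group Γ] [Finite Γ] [MulSemiringAction Γ B] [SMulCommClass Γ A B]
  [Algebra.IsInvariant A B Γ] [FaithfulSMul Γ B] [Finite (ResidueField A)]

attribute [local instance] FractionRing.liftAlgebra in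
/-- Hilbert's formula in the setting of `FL.RCDatum`. -/
theorem differentIdeal_eq_pow_sum_lowIdx_of_datum [Fintype Γ] [DecidableEq Γ] :
    differentIdeal A B =
      maximalIdeal B ^ (∑ σ ∈ Finset.univ.erase (1 : Γ), lowIdx Γ B σ) := by
  letI := IsFractionRing.mulSemiringAction Γ B (FractionRing B)
  haveI : IsGaloisGroup Γ A B := ⟨inferInstance, inferInstance, inferInstance⟩
  haveI : IsGaloisGroup Γ (FractionRing A) (FractionRing B) :=
    IsGaloisGroup.to_isFractionRing Γ A B (FractionRing A) (FractionRing B)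
  haveI : IsGalois (FractionRing A) (FractionRing B) :=
    IsGaloisGroup.isGalois Γ (FractionRing A) (FractionRing B)
  haveI : FiniteDimensional (FractionRing A) (FractionRing B) :=
    IsGaloisGroup.finiteDimensional Γ (FractionRing A) (FractionRing B)
  haveI : IsIntegralClosure B A (FractionRing B) :=
    IsIntegralClosure.of_isIntegrallyClosed B A (FractionRing B)
  obtain ⟨x, hx⟩ := exists_adjoin_eq_top_of_finite A B
  exact differentIdeal_eq_pow_sum_lowIdx A (FractionRing A) (FractionRing B) Γ hx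

end Datum

/-- **RL-H**, verbatim. -/
theorem rlHilbert : RLHilbertStatement := by
  classical
  intro d
  haveI : Finite (ResidueField d.A) := by
    apply Nat.finite_of_card_ne_zero
    rw [d.hκ]
    exact d.hp.ne_zero
  haveI : IsGaloisGroup d.Γ d.A d.B := ⟨inferInstance, inferInstance, inferInstance⟩
  cases nonempty_fintype d.Γ
  refine ⟨?_, ?_⟩
  · have he : Ideal.map (algebraMap d.A d.B) (maximalIdeal d.A) = maximalIdeal d.B ^ d.e := by
      rw [d.hA, Ideal.map_span, Set.image_singleton, map_natCast, d.he]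
    exact (card_ramGroup_zero_eq (Γ := d.Γ) he).symm
  · rw [differentIdeal_eq_pow_sum_lowIdx_of_datum d.A d.B d.Γ, sum_lowIdx_eq_finsum]
    rfl

end Fermat.Agent.S56.H102.RLH
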